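import Fermat.Agent.ML.Main.Fin.Spec
import Fermat.Agent.ML.Gen.Stage

/-!
# ML / Hard / Fin / Spec : the interface between the two halves of `FinGenStmt`

`FinLoc` = the LOCAL SHAPE of `ρ : G_ℚ → GL₂(R)` at the final stage, as MATRIX IDENTITIES IN `R` (no module, no ideal) :

* `Ps` = the raised primes `≠ p` : `rbar0` unramified, Steinberg identities with the sign `eps v`, unipotent inertia;
* at `p` : flat, or the strict ordinary operator identity;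
* at the other primes of `T` : unramified, or `rbar0` ramified and `tr = 2`, `det = 1` on inertia.

`ML/Hard/Fin/Abs.lean`  : `FinLoc → FinVars p t R`      (GEN + strictness + scroll relations).
`FinLocStmt`            : cell + `IsRhoK` ⟹ `FinLoc`   (joint faithfulness).
-/

set_option autoImplicit false

noncomputable section

open AlgebraicCurve ModularCurve ExtCitation

namespace Fermat.Agent.ML.Hard

open Fermat.Agent.RIB Fermat.Agent.RIB.Rho Fermat.Agent.ML.ESide Fermat.Agent.S56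
open CFT (levS decomp)

/-- the local shape of `ρ` at the final stage : matrix identities in `R`. -/
structure FinLoc (p : ℕ) [Fact p.Prime] (T : Finset ℕ) (rbar0 : GQ →* M2 (ZMod p)) {t : ℕ}
    (qv : Fin t → Nat.Primes) (Ps : Finset Nat.Primes) (eps : ℕ → ℤ)
    {R : Type} [CommRing R] (π0 : R →+* ZMod p) (ρ : GQ →* M2 R) : Prop where
  lift : ∀ σ, (ρ σ).map π0 = rbar0 σ
  det : ∀ σ, ∃ c : ℤ, (ρ σ).det = (c : R)
  tr : Algebra.adjoin ℤ (Set.range fun σ => (ρ σ).trace) = ⊤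
  cont : GaloisFactorsThroughFiniteLevel ρ
  lev : ∃ U ∈ (levS (toP T ∪ Finset.univ.image qv)).carrier, ∀ s ∈ U, ρ s = 1
  sub : Ps ⊆ toP T
  pnot : pPrime p ∉ Ps
  /-- the raised primes -/
  sgn : ∀ v ∈ Ps, eps (v : ℕ) = 1 ∨ eps (v : ℕ) = -1
  unr : ∀ v ∈ Ps, ∀ σ ∈ inert v, rbar0 σ = 1
  detF : ∀ v ∈ Ps, ∀ φ : GQ, (primeLocalPlace v).IsFrobeniusAt φ (v : ℕ) →
    (ρ φ).det = (((v : ℕ) : ℕ) : R)
  st1 : ∀ v ∈ Ps, ∀ φ : GQ, (primeLocalPlace v).IsFrobeniusAt φ (v : ℕ) → ∀ τ ∈ inert v,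
    (ρ φ - ((eps (v : ℕ) : R) * ((v : ℕ) : R)) • (1 : M2 R)) * (ρ τ - 1) = 0
  st2 : ∀ v ∈ Ps, ∀ φ : GQ, (primeLocalPlace v).IsFrobeniusAt φ (v : ℕ) → ∀ τ ∈ inert v,
    (ρ τ - 1) * (ρ φ - (eps (v : ℕ) : R) • (1 : M2 R)) = 0
  st3 : ∀ v ∈ Ps, ∀ φ : GQ, (primeLocalPlace v).IsFrobeniusAt φ (v : ℕ) →
    (ρ φ - ((eps (v : ℕ) : R) * ((v : ℕ) : R)) • (1 : M2 R)) *
      (ρ φ - (eps (v : ℕ) : R) • (1 : M2 R)) = 0
  unip : ∀ v ∈ Ps, ∀ τ ∈ inert v, (ρ τ - 1) * (ρ τ - 1) = 0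
  /-- inertia at `v ≠ p` has determinant one -/
  detI : ∀ v ∈ toP T, v ≠ pPrime p → ∀ τ ∈ inert v, (ρ τ).det = 1
  /-- at `p` -/
  atp : (∀ φ : R →+* DualNumber (kM p),
      Flat.HasFlat (Flat.Ap p).valuation (Flat.matAct (Flat.Ip p) (S53.mapRep φ ρ))) ∨
    (∃ e : GQ → R, (∀ σ ∈ inert (pPrime p), e σ = 1) ∧
      ∀ σ ∈ decomp (pPrime p), ∀ τ ∈ decomp (pPrime p),
        (ρ σ - ((ρ σ).det * e σ) • (1 : M2 R)) * (ρ τ - e τ • (1 : M2 R)) = 0)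
  /-- the other primes of `T` -/
  min : ∀ v ∈ toP T, v ∉ Ps → v ≠ pPrime p →
    (∀ σ ∈ inert v, ρ σ = 1) ∨ ((∃ σ ∈ inert v, rbar0 σ ≠ 1) ∧ ∀ σ ∈ inert v, (ρ σ).trace = 2)

/-- the raised primes `≠ p`, as a finset of `Nat.Primes`. -/
def PsFin (W : WeierstrassCurve ℤ) {p : ℕ} (rbar0 : GQ →* M2 (ZMod p)) (L₀ : ℕ) :
    Finset Nat.Primes :=
  toP ((Pfin W rbar0 L₀).erase p)

/-- **(FIN-LOC)** : the cell in the final state + joint faithfulness ⟹ the local shape of `ρ`. -/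
def FinLocStmt : Prop :=
  ∀ (W : WeierstrassCurve ℤ) (p : ℕ) [Fact p.Prime] (T : Finset ℕ)
    (b : Module.Basis (Fin 2) (ZMod p) (TorsW W p)) (L₀ : ℕ) [NeZero L₀] (eps : ℕ → ℤ)
    (eP : GQ → ℤ) (X : LCtx W p T b L₀ eps eP) (t : ℕ) (a m n K : ℕ) (qv : Fin t → Nat.Primes),
      Frm p X.C.hp2 T W.apOfModel (rbarB b) t 0 0 a m n K qv →
      ∀ (L : ℕ) [NeZero L], L = cellLevel L₀ (Pfin W (rbarB b) L₀) →
      ∀ G : AddSubgroup (JZero (lvl L (extP qv) t)),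
        IsCell p T W.apOfModel (rbarB b) eps eP L qv a (Pfin W (rbarB b) L₀) G →
        ∀ B : Module.Basis (Fin 2) (ZMod (p ^ (K + 1))) (TorsW W (p ^ (K + 1))),
          (∀ i, redK W p K (B i) = b i) → Rho.EK (p ^ (K + 1)) T W.apOfModel (rEB B) →
          (∀ g, (rEB B g).map (castK p K) = rbarB b g) →
          ∀ (R : Type) [CommRing R] [IsLocalRing R] [Finite R] [Algebra (ZMod (p ^ (K + 1))) R]
            [Module R ↥G] (πE : R →ₐ[ZMod (p ^ (K + 1))] ZMod (p ^ (K + 1))) (ρ : GQ →* M2 R)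
            (Φ : M2 R →ₐ[R] Module.End R ↥G),
            Rho.IsRhoK (lvl L (extP qv) t) (p ^ (K + 1)) G (rEB B) πE ρ Φ →
            FinLoc p T (rbarB b) qv (PsFin W (rbarB b) L₀) eps
              ((castK p K).comp (πE : R →+* ZMod (p ^ (K + 1)))) ρ

end Fermat.Agent.ML.Hard
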